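import Fermat.Agent.X015.Param
import Fermat.Prelude.Def_FLTPrelim_GaloisRep
import Mathlib.FieldTheory.Galois.Infinite

/-!
# A Galois stable line in the `3`- or `5`-torsion gives a rational parameter

`exists_generator` produces a point generating a stable line; the parameter attached to it is
unchanged by negation and by passage to its multiples, hence Galois invariant, hence rational:
`exists_par3` and `exists_par5`.
-/

set_option autoImplicit false

noncomputable section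

open WeierstrassCurve WeierstrassCurve.Affine
open scoped WeierstrassCurve.Affine

namespace FLTAgent.X015

local notation "Qb" => AlgebraicClosure ℚ

/-- A stable line is generated by a point whose conjugates are its multiples. -/
lemma exists_generator (E : Affine ℚ) {p : ℕ} (hp : p.Prime)
    (hcard : Nat.card (Submodule.torsionBy ℤ (E⁄Qb).Point p) = p ^ 2)
    (N : Submodule (ZMod p) (Submodule.torsionBy ℤ (E⁄Qb).Point p))
    (hN : Point.IsGaloisStable ℚ N) (hbot : N ≠ ⊥) (htop : N ≠ ⊤) :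
    ∃ P : (E⁄Qb).Point, P ≠ 0 ∧ p • P = 0 ∧
      ∀ σ : Qb ≃ₐ[ℚ] Qb, ∃ k < p, σ • P = k • P := by
  have : Fact p.Prime := ⟨hp⟩
  have : Finite (Submodule.torsionBy ℤ (E⁄Qb).Point p) :=
    Nat.finite_of_card_ne_zero (hcard ▸ pow_ne_zero 2 hp.ne_zero)
  have hNcard : Nat.card N.toAddSubgroup = p := by
    obtain ⟨i, hi, hcardN⟩ := (Nat.dvd_prime_pow hp).mp
      (hcard ▸ AddSubgroup.card_addSubgroup_dvd_card N.toAddSubgroup)
    rcases (by omega : i = 0 ∨ i = 1 ∨ i = 2) with rfl | rfl | rfl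
    · refine absurd ?_ hbot
      exact Submodule.toAddSubgroup_injective
        ((AddSubgroup.eq_bot_of_card_eq _ (by simpa using hcardN)).trans
          Submodule.bot_toAddSubgroup.symm)
    · simpa using hcardN
    · refine absurd ?_ htop
      exact Submodule.toAddSubgroup_injective
        ((AddSubgroup.eq_top_of_card_eq _ (hcardN.trans hcard.symm)).trans
          Submodule.top_toAddSubgroup.symm)
  obtain ⟨x, hxN, hx⟩ := N.exists_mem_ne_zero_of_ne_bot hbot
  have hpx : p • (x : (E⁄Qb).Point) = 0 := by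
    rw [← natCast_zsmul]
    exact (Submodule.mem_torsionBy_iff _ _).mp x.2
  refine ⟨x, fun h => hx (Subtype.ext h), hpx, fun σ => ?_⟩
  have hx' : (⟨x, hxN⟩ : N.toAddSubgroup) ≠ 0 := fun h => hx (congrArg Subtype.val h)
  obtain ⟨k, hk⟩ := AddSubmonoid.mem_multiples_iff _ _ |>.mp
    (mem_multiples_of_prime_card (g' := (⟨σ • x, hN σ x hxN⟩ : N.toAddSubgroup)) hNcard hx')
  have hk' : σ • (x : (E⁄Qb).Point) = k • (x : (E⁄Qb).Point) := by
    have := congrArg (fun z : N.toAddSubgroup =>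
      ((z : Submodule.torsionBy ℤ (E⁄Qb).Point p) : (E⁄Qb).Point)) hk
    have h2 : ((σ • x : Submodule.torsionBy ℤ (E⁄Qb).Point p) : (E⁄Qb).Point) = σ • (x : (E⁄Qb).Point) := rfl
    simpa [h2] using this.symm
  refine ⟨k % p, Nat.mod_lt _ hp.pos, ?_⟩
  rw [hk']
  conv_lhs => rw [← Nat.mod_add_div k p, add_nsmul, mul_nsmul, hpx, nsmul_zero, add_zero]

lemma smul_some (E : Affine ℚ) (σ : Qb ≃ₐ[ℚ] Qb) {x y : Qb} (h : (E⁄Qb).Nonsingular x y) :
    ∃ h', σ • Point.some x y h = Point.some (σ x) (σ y) h' :=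
  ⟨_, Point.map_some σ.toAlgHom h⟩

lemma exists_rat_of_fixed {z : Qb} (h : ∀ σ : Qb ≃ₐ[ℚ] Qb, σ z = z) :
    ∃ r : ℚ, (r : Qb) = z := by
  have : IsAlgClosure ℚ Qb := ⟨inferInstance, AlgebraicClosure.isAlgebraic ℚ⟩
  have : IsGalois ℚ Qb := IsAlgClosure.isGalois ℚ Qb
  obtain ⟨r, hr⟩ := (InfiniteGalois.mem_range_algebraMap_iff_fixed z).mpr h
  exact ⟨r, by rw [← hr, eq_ratCast]⟩

lemma par_map_galois (E : Affine ℚ) (σ : Qb ≃ₐ[ℚ] Qb) (x y : Qb) :
    σ (par3 (E⁄Qb) x y) = par3 (E⁄Qb) (σ x) (σ y) ∧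
      σ (par5 (E⁄Qb) x y) = par5 (E⁄Qb) (σ x) (σ y) :=
  par_map (E⁄Qb) (σ : Qb →+* Qb) (σ.commutes _) (σ.commutes _) (σ.commutes _) (σ.commutes _) x y

/-- The level 3 parameter of a curve with a stable line of order 3. -/
lemma exists_par3 (E : Affine ℚ)
    (P : (E⁄Qb).Point) (hP0 : P ≠ 0) (hP : 3 • P = 0)
    (hG : ∀ σ : Qb ≃ₐ[ℚ] Qb, ∃ k < 3, σ • P = k • P) :
    ∃ r : ℚ, E.c₄ ^ 3 * r = E.Δ * (r + 27) * (r + 3) ^ 3 := by
  obtain _ | ⟨x, y, h⟩ := P
  · exact absurd rfl hP0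
  have hP' : Point.some x y h + Point.some x y h + Point.some x y h = 0 := by
    rw [← hP]; abel
  have hD := (order_three h hP').1
  have hfix : ∀ σ : Qb ≃ₐ[ℚ] Qb, σ (par3 (E⁄Qb) x y) = par3 (E⁄Qb) x y := by
    intro σ
    rw [(par_map_galois E σ x y).1]
    obtain ⟨h', hs⟩ := smul_some E σ h
    obtain ⟨k, hk, hkP⟩ := hG σ
    rw [hs] at hkP
    interval_cases k
    · rw [zero_nsmul] at hkP
      exact absurd hkP (Point.some_ne_zero _)
    · rw [one_nsmul] at hkP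
      obtain ⟨e1, e2⟩ := Point.some.inj hkP
      rw [e1, e2]
    · rw [show (2 : ℕ) • Point.some x y h = -Point.some x y h from
        eq_neg_of_add_eq_zero_left (by rw [← hP]; abel), Point.neg_some] at hkP
      obtain ⟨e1, e2⟩ := Point.some.inj hkP
      rw [e1, e2, par3_negY _ hD]
  obtain ⟨r, hr⟩ := exists_rat_of_fixed hfix
  refine ⟨r, (algebraMap ℚ Qb).injective ?_⟩
  have := par3_spec h hP'
  rw [show (E⁄Qb).c₄ = algebraMap ℚ Qb E.c₄ from map_c₄ E _,
    show (E⁄Qb).Δ = algebraMap ℚ Qb E.Δ from map_Δ E _, ← hr] at this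
  simpa [eq_ratCast] using this

/-- The level 5 parameter of a curve with a stable line of order 5. -/
lemma exists_par5 (E : Affine ℚ)
    (P : (E⁄Qb).Point) (hP0 : P ≠ 0) (hP : 5 • P = 0)
    (hG : ∀ σ : Qb ≃ₐ[ℚ] Qb, ∃ k < 5, σ • P = k • P) :
    ∃ t : ℚ, E.c₄ ^ 3 * t = E.Δ * (t ^ 2 + 10 * t + 5) ^ 3 := by
  obtain _ | ⟨x, y, h⟩ := P
  · exact absurd rfl hP0
  obtain ⟨hD, -, -, x₂, y₂, h₂, hQ, hD₂, hpar⟩ := order_five h hP
  have hfix : ∀ σ : Qb ≃ₐ[ℚ] Qb, σ (par5 (E⁄Qb) x y) = par5 (E⁄Qb) x y := by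
    intro σ
    rw [(par_map_galois E σ x y).2]
    obtain ⟨h', hs⟩ := smul_some E σ h
    obtain ⟨k, hk, hkP⟩ := hG σ
    rw [hs] at hkP
    interval_cases k
    · rw [zero_nsmul] at hkP
      exact absurd hkP (Point.some_ne_zero _)
    · rw [one_nsmul] at hkP
      obtain ⟨e1, e2⟩ := Point.some.inj hkP
      rw [e1, e2]
    · rw [two_nsmul, hQ] at hkP
      obtain ⟨e1, e2⟩ := Point.some.inj hkP
      rw [e1, e2, hpar]
    · rw [show (3 : ℕ) • Point.some x y h = -(Point.some x y h + Point.some x y h) from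
        eq_neg_of_add_eq_zero_left (by rw [← hP]; abel), hQ, Point.neg_some] at hkP
      obtain ⟨e1, e2⟩ := Point.some.inj hkP
      rw [e1, e2, par5_negY _ hD₂, hpar]
    · rw [show (4 : ℕ) • Point.some x y h = -Point.some x y h from
        eq_neg_of_add_eq_zero_left (by rw [← hP]; abel), Point.neg_some] at hkP
      obtain ⟨e1, e2⟩ := Point.some.inj hkP
      rw [e1, e2, par5_negY _ hD]
  obtain ⟨t, ht⟩ := exists_rat_of_fixed hfix
  refine ⟨t, (algebraMap ℚ Qb).injective ?_⟩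
  have := par5_spec h hP
  rw [show (E⁄Qb).c₄ = algebraMap ℚ Qb E.c₄ from map_c₄ E _,
    show (E⁄Qb).Δ = algebraMap ℚ Qb E.Δ from map_Δ E _, ← ht] at this
  simpa [eq_ratCast] using this

end FLTAgent.X015
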