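import Fermat.Agent.X015.Curve
import Fermat.Agent.X015.Line
import Fermat.Agent.EllTorsion.Galois
import Fermat.Prelude.Def_FLTPrelim_ModularRep

/-!
# A semistable curve has irreducible mod 3 or mod 5 representation

Main result `three_or_five`. If both representations are reducible, the two rational parameters
give a rational point on the curve of level 15, so the `j`-invariant is one of four values;
each has numerator exactly divisible by `5` or `25`, which `no_bad_j` shows impossible for a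
model semistable at `5`.
-/

set_option autoImplicit false

noncomputable section

open WeierstrassCurve WeierstrassCurve.Affine
open scoped WeierstrassCurve.Affine

namespace FLTAgent.X015

local notation "Qb" => AlgebraicClosure ℚ

lemma no_bad_j {c d : ℤ} (a b : ℤ) (h : b * c ^ 3 = a * d) (ha : (5 : ℤ) ∣ a)
    (ha3 : ¬ (125 : ℤ) ∣ a) (hb : ¬ (5 : ℤ) ∣ b) (hcd : (5 : ℤ) ∣ d → ¬ (5 : ℤ) ∣ c) : False := by
  have hp5 : Prime (5 : ℤ) := Nat.prime_iff_prime_int.mp Nat.prime_five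
  have hc : (5 : ℤ) ∣ c := hp5.dvd_of_dvd_pow (n := 3)
    ((hp5.dvd_or_dvd (h ▸ dvd_mul_of_dvd_left ha d)).resolve_left hb)
  have hd : IsCoprime (5 : ℤ) d := hp5.coprime_iff_not_dvd.mpr fun h5 => hcd h5 hc
  have h125 : (125 : ℤ) ∣ a * d := by
    rw [← h]
    exact dvd_mul_of_dvd_right (by simpa using pow_dvd_pow_of_dvd hc 3) b
  exact ha3 ((by simpa using hd.pow_left (m := 3) : IsCoprime (125 : ℤ) d).dvd_of_dvd_mul_right h125)

lemma reducible_extract (W : WeierstrassCurve ℤ) (hΔ : W.Δ ≠ 0) {p : ℕ} (hp : p.Prime)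
    (h : ¬ W.ModRepIsIrreducible p) :
    ∃ P : ((W.map (Int.castRingHom ℚ)).toAffine⁄Qb).Point, P ≠ 0 ∧ p • P = 0 ∧
      ∀ σ : Qb ≃ₐ[ℚ] Qb, ∃ k < p, σ • P = k • P := by
  have := FLTAgent.EllTorsion.isElliptic_map_rat hΔ
  have hcard := FLTAgent.EllTorsion.natCard_torsionBy_rat (W.map (Int.castRingHom ℚ)) p hp.ne_zero
  have hnt := FLTAgent.EllTorsion.nontrivial_torsionBy_rat (W.map (Int.castRingHom ℚ)) p hp.two_le
  rw [ModRepIsIrreducible, Point.GaloisRepIsIrreducible, not_and] at h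
  have h' := h hnt
  push Not at h'
  obtain ⟨N, hN, hbot, htop⟩ := h'
  exact exists_generator (W.map (Int.castRingHom ℚ)).toAffine hp hcard N hN hbot htop

/-- A semistable curve over `ℚ` has irreducible mod 3 or mod 5 representation. -/
theorem three_or_five (W : WeierstrassCurve ℤ) (hΔ : W.Δ ≠ 0) (hW : W.IsSemistableModel) :
    W.ModRepIsIrreducible 3 ∨ W.ModRepIsIrreducible 5 := by
  by_contra hcon
  rw [not_or] at hcon
  obtain ⟨P, hP0, hP, hGP⟩ := reducible_extract W hΔ Nat.prime_three hcon.1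
  obtain ⟨Q, hQ0, hQ, hGQ⟩ := reducible_extract W hΔ Nat.prime_five hcon.2
  obtain ⟨r, hr⟩ := exists_par3 _ P hP0 hP hGP
  obtain ⟨t, ht⟩ := exists_par5 _ Q hQ0 hQ hGQ
  have hc : (W.map (Int.castRingHom ℚ)).toAffine.c₄ = (W.c₄ : ℚ) := map_c₄ W _
  have hd : (W.map (Int.castRingHom ℚ)).toAffine.Δ = (W.Δ : ℚ) := map_Δ W _
  rw [hc, hd] at hr ht
  have hd0 : (W.Δ : ℚ) ≠ 0 := Int.cast_ne_zero.mpr hΔ
  have hr0 : r ≠ 0 := by
    rintro rfl
    norm_num at hr
    exact hΔ hr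
  have ht0 : t ≠ 0 := by
    rintro rfl
    norm_num at ht
    exact hΔ ht
  have hj : t * (r + 27) * (r + 3) ^ 3 = r * (t ^ 2 + 10 * t + 5) ^ 3 := by
    apply mul_left_cancel₀ hd0
    linear_combination r * ht - t * hr
  have hcop : (5 : ℤ) ∣ W.Δ → ¬ (5 : ℤ) ∣ W.c₄ := hW 5 Nat.prime_five
  rcases level_fifteen hr0 ht0 hj with rfl | rfl | rfl | rfl
  · exact no_bad_j (-121945) 32 (by exact_mod_cast
      (by linear_combination (-32 * 2 / 25 : ℚ) * ht :
        ((32 : ℤ) : ℚ) * (W.c₄ : ℚ) ^ 3 = ((-121945 : ℤ) : ℚ) * (W.Δ : ℚ)))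
      (by norm_num) (by norm_num) (by norm_num) hcop
  · exact no_bad_j 46969655 32768 (by exact_mod_cast
      (by linear_combination (-32768 * 8 / 25 : ℚ) * ht :
        ((32768 : ℤ) : ℚ) * (W.c₄ : ℚ) ^ 3 = ((46969655 : ℤ) : ℚ) * (W.Δ : ℚ)))
      (by norm_num) (by norm_num) (by norm_num) hcop
  · exact no_bad_j (-25) 2 (by exact_mod_cast
      (by linear_combination (-2 / 10 : ℚ) * ht :
        ((2 : ℤ) : ℚ) * (W.c₄ : ℚ) ^ 3 = ((-25 : ℤ) : ℚ) * (W.Δ : ℚ)))
      (by norm_num) (by norm_num) (by norm_num) hcop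
  · exact no_bad_j (-349938025) 8 (by exact_mod_cast
      (by linear_combination (-8 / 40 : ℚ) * ht :
        ((8 : ℤ) : ℚ) * (W.c₄ : ℚ) ^ 3 = ((-349938025 : ℤ) : ℚ) * (W.Δ : ℚ)))
      (by norm_num) (by norm_num) (by norm_num) hcop

end FLTAgent.X015
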