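import Fermat.Agent.X015.Descent

/-!
# The rational points of the modular curve of level 15

`abscissa_cases` lists the abscissae of the rational points on `V² = U (U + 9) (U - 16)`, from
the descent. Hence `level_fifteen`: if nonzero rationals `r`, `t` give the same `j`-invariant as
parameters of levels 3 and 5, then `t` is one of `-25/2`, `-25/8`, `-10`, `-40`.
-/

set_option autoImplicit false

namespace FLTAgent.X015

/-- A positive square abscissa is `16` or `36`. -/
lemma square_abscissa {U V : ℚ} (h : V ^ 2 = U * (U + 9) * (U - 16)) (hU : IsSquare U)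
    (hU0 : U ≠ 0) (hc : IsSquare (U + 9) ∨ IsSquare (5 * (U + 9))) : U = 16 ∨ U = 36 := by
  have hUpos : 0 < U := lt_of_le_of_ne hU.nonneg (Ne.symm hU0)
  have hU9 : U + 9 ≠ 0 := by linarith
  rcases hc with h9 | h9
  · refine Or.inl (eq_sixteen hU h9 ?_)
    have e : U - 16 = V * V / (U * (U + 9)) := by
      field_simp
      linear_combination -h
    rw [e]
    exact IsSquare.div ⟨V, rfl⟩ (hU.mul h9)
  by_cases h36 : U = 36
  · exact Or.inr h36
  by_cases h16 : U = 16
  · exact Or.inl h16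
  have hd : U - 36 ≠ 0 := sub_ne_zero.mpr h36
  have hd16 : U - 16 ≠ 0 := sub_ne_zero.mpr h16
  obtain ⟨lam, hlam⟩ : ∃ l, l * (U - 36) = V - 180 := ⟨_, div_mul_cancel₀ (V - 180) hd⟩
  set ν := V - lam * U with hν
  set W := lam ^ 2 + 7 - U - 36 with hW
  -- the line through `(U, V)` and `(36, 180)`
  have hs : (U + 36) * W + 36 * U + 144 + 2 * lam * ν = 0 := by
    apply mul_left_cancel₀ hd
    simp only [hν, hW]
    linear_combination (-(lam * (U - 36)) + V + 180) * hlam + h
  have h0 : 36 * U * W = ν ^ 2 := by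
    simp only [hν, hW] at hs ⊢
    linear_combination U * hs - h
  have hm9 : 45 * (U + 9) * (W + 9) = (ν - 9 * lam) ^ 2 := by
    simp only [hW] at h0 hs ⊢
    linear_combination h0 + 9 * hs
  have h16' : 20 * (U - 16) * (W - 16) = (ν + 16 * lam) ^ 2 := by
    simp only [hW] at h0 hs ⊢
    linear_combination h0 - 16 * hs
  have sqc : ∀ x : ℚ, IsSquare (x ^ 2) := fun x => ⟨x, pow_two x⟩
  have h95 : 45 * (U + 9) = 9 * (5 * (U + 9)) := by ring
  have hW0 : IsSquare W := by
    have e : W = ν ^ 2 / (6 ^ 2 * U) := by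
      field_simp
      linear_combination h0
    rw [e]
    exact (sqc ν).div ((sqc 6).mul hU)
  have hW9 : IsSquare (W + 9) := by
    have e : W + 9 = (ν - 9 * lam) ^ 2 / (3 ^ 2 * (5 * (U + 9))) := by
      field_simp
      linear_combination hm9
    rw [e]
    exact (sqc _).div ((sqc 3).mul h9)
  have h165 : IsSquare (5 * (U - 16)) := by
    have e : 5 * (U - 16) = (5 * V) ^ 2 / (U * (5 * (U + 9))) := by
      field_simp
      linear_combination -h
    rw [e]
    exact (sqc _).div (hU.mul h9)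
  have hW16 : IsSquare (W - 16) := by
    have e : W - 16 = (ν + 16 * lam) ^ 2 / (2 ^ 2 * (5 * (U - 16))) := by
      field_simp
      linear_combination h16'
    rw [e]
    exact (sqc _).div ((sqc 2).mul h165)
  have hWval := eq_sixteen hW0 hW9 hW16
  have hν' : ν + 16 * lam = 0 :=
    pow_eq_zero_iff two_ne_zero |>.mp (h16'.symm.trans (by rw [hWval]; ring))
  have hlam2 : 625 * lam ^ 2 = 1125 * (U + 9) := by
    rw [hWval, show ν - 9 * lam = -25 * lam by linarith] at hm9
    linear_combination -hm9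
  exfalso
  apply h36
  linear_combination (-(1 : ℚ) / 500) * hlam2 + (5 / 4 : ℚ) * (hW.symm.trans hWval)

/-- The rational points on `V² = U (U + 9) (U - 16)`. -/
lemma abscissa_cases {U V : ℚ} (h : V ^ 2 = U * (U + 9) * (U - 16)) :
    U = 0 ∨ U = -9 ∨ U = 16 ∨ U = 36 ∨ U = -4 := by
  by_contra hcon
  simp only [not_or] at hcon
  obtain ⟨h0, h9, h16, h36, h4⟩ := hcon
  -- classes of every point off the `2`-torsion
  have classes : ∀ x y : ℚ, y ^ 2 = x * (x + 9) * (x - 16) → x ≠ 0 → x + 9 ≠ 0 → x - 16 ≠ 0 →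
      (IsSquare x ∨ IsSquare (-x)) ∧ (IsSquare (x + 9) ∨ IsSquare (5 * (x + 9))) := by
    intro x y hxy hx0 hx9 hx16
    have hx : (x.num : ℚ) / (x.den : ℤ) = x := by simp [Rat.num_div_den]
    have hcop : IsCoprime x.num (x.den : ℤ) :=
      Int.isCoprime_iff_gcd_eq_one.mpr (by simpa [Int.gcd] using x.reduced)
    obtain ⟨n, hn⟩ : ∃ n : ℤ, n = x.den := ⟨_, rfl⟩
    have hn0 : 0 < n := by rw [hn]; exact_mod_cast x.den_pos
    rw [← hn] at hx hcop
    generalize x.num = m at hx hcop
    subst hx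
    have hn0' : (n : ℚ) ≠ 0 := by exact_mod_cast hn0.ne'
    obtain ⟨z, hz⟩ : IsSquare (n * (m * (m + 9 * n) * (m - 16 * n))) := by
      rw [← Rat.isSquare_intCast_iff]
      refine ⟨y * n ^ 2, ?_⟩
      push_cast
      field_simp at hxy ⊢
      linear_combination -hxy
    have hcop' : IsCoprime n (m * (m + 9 * n) * (m - 16 * n)) := by
      refine (hcop.symm.mul_right ?_).mul_right ?_
      · exact (hcop.add_mul_right_left 9).symm
      · have := (hcop.add_mul_right_left (-16)).symm
        rwa [show m - 16 * n = m + -16 * n by ring]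
    have hz0 : z ≠ 0 := by
      rintro rfl
      have hP : m * (m + 9 * n) * (m - 16 * n) = 0 :=
        (mul_eq_zero.mp (hz.trans (mul_zero 0))).resolve_left hn0.ne'
      have hP' : (m : ℚ) * (m + 9 * n) * (m - 16 * n) = 0 := by exact_mod_cast hP
      refine mul_ne_zero (mul_ne_zero hx0 hx9) hx16 ?_
      field_simp
      linear_combination hP'
    have hnsq : IsSquare n := by
      obtain ⟨a, ha | ha⟩ := Int.sq_of_isCoprime hcop' (hz.trans (pow_two z).symm)
      · exact ⟨a, by rw [ha, pow_two]⟩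
      · exfalso; nlinarith [sq_nonneg a]
    obtain ⟨w, hw⟩ : IsSquare (m * (m + 9 * n) * (m - 16 * n)) := by
      obtain ⟨a, ha | ha⟩ := Int.sq_of_isCoprime hcop'.symm
        ((mul_comm _ n).trans (hz.trans (pow_two z).symm))
      · exact ⟨a, by rw [ha, pow_two]⟩
      · exfalso
        rw [ha] at hz
        have hz2 : 0 < z * z := mul_self_pos.mpr hz0
        nlinarith [sq_nonneg a]
    have hw0 : w ≠ 0 := by
      rintro rfl
      rw [mul_zero] at hw
      rw [hw, mul_zero] at hz
      exact hz0 (mul_self_eq_zero.mp hz.symm)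
    obtain ⟨hc1, hc2⟩ := descent_classes hn0 hcop hnsq hw0 (hw.trans (pow_two w).symm)
    have hnQ : IsSquare (n : ℚ) := Rat.isSquare_intCast_iff.mpr hnsq
    refine ⟨hc1.imp ?_ ?_, hc2.imp ?_ ?_⟩ <;> intro hs
    · exact (Rat.isSquare_intCast_iff.mpr hs).div hnQ
    · rw [← neg_div]
      simpa using (Rat.isSquare_intCast_iff.mpr hs).div hnQ
    · have := (Rat.isSquare_intCast_iff.mpr hs).div hnQ
      push_cast at this
      rwa [show (m : ℚ) / n + 9 = (m + 9 * n) / n by field_simp]
    · have := (Rat.isSquare_intCast_iff.mpr hs).div hnQ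
      push_cast at this
      rwa [show 5 * ((m : ℚ) / n + 9) = 5 * (m + 9 * n) / n by field_simp]
  have h9' : U + 9 ≠ 0 := fun e => h9 (by linarith)
  have h16' : U - 16 ≠ 0 := sub_ne_zero.mpr h16
  obtain ⟨hs | hs, hc⟩ := classes U V h h0 h9' h16'
  · rcases square_abscissa h hs h0 hc with e | e
    exacts [h16 e, h36 e]
  -- translate by `(0, 0)`
  have hT : (144 * V / U ^ 2) ^ 2 = -144 / U * (-144 / U + 9) * (-144 / U - 16) := by
    field_simp
    linear_combination 144 * h
  have hT0 : -144 / U ≠ 0 := div_ne_zero (by norm_num) h0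
  have hTsq : IsSquare (-144 / U) := by
    rw [show -144 / U = (12 : ℚ) ^ 2 / (-U) by field_simp; ring]
    exact IsSquare.div ⟨12, pow_two 12⟩ hs
  have hT9 : -144 / U + 9 ≠ 0 := by
    intro e
    field_simp at e
    exact h16 (by linarith)
  have hT16 : -144 / U - 16 ≠ 0 := by
    intro e
    field_simp at e
    exact h9 (by linarith)
  rcases square_abscissa hT hTsq hT0 (classes _ _ hT hT0 hT9 hT16).2 with e | e
  · field_simp at e
    exact h9 (by linarith)
  · field_simp at e
    exact h4 (by linarith)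

/-- An irreducibility statement: this quartic has no rational root. -/
lemma quartic_ne_zero (e : ℚ) : e ^ 4 + 2 * e ^ 3 - 10 * e ^ 2 + 4 * e + 4 ≠ 0 := by
  intro h
  have hi : IsIntegral ℤ e := by
    refine ⟨Polynomial.X ^ 4 + Polynomial.C 2 * Polynomial.X ^ 3 - Polynomial.C 10 * Polynomial.X ^ 2
      + Polynomial.C 4 * Polynomial.X + Polynomial.C 4, ?_, ?_⟩
    · monicity!
    · simp [← h]
  obtain ⟨k, rfl⟩ := IsIntegrallyClosed.isIntegral_iff.mp hi
  simp only [eq_intCast] at h
  have h' : k * (k ^ 3 + 2 * k ^ 2 - 10 * k + 4) = -4 := by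
    have : k ^ 4 + 2 * k ^ 3 - 10 * k ^ 2 + 4 * k + 4 = 0 := by exact_mod_cast h
    linarith
  have hd : k ∣ 4 := ⟨-(k ^ 3 + 2 * k ^ 2 - 10 * k + 4), by linear_combination h'⟩
  have h1 : k ≤ 4 := Int.le_of_dvd (by norm_num) hd
  have h2 : -4 ≤ k := by
    have := Int.le_of_dvd (by norm_num) ((neg_dvd (a := k) (b := 4)).mpr hd)
    linarith
  interval_cases k <;> norm_num at h'

/-- The rational solutions of the equation `j₃(r) = j₅(t)`. -/
theorem level_fifteen {r t : ℚ} (hr : r ≠ 0) (ht : t ≠ 0)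
    (h : t * (r + 27) * (r + 3) ^ 3 = r * (t ^ 2 + 10 * t + 5) ^ 3) :
    t = -25 / 2 ∨ t = -25 / 8 ∨ t = -10 ∨ t = -40 := by
  have hQ : t ^ 2 + 10 * t + 5 ≠ 0 := by
    intro hQ
    have hns : ¬ IsSquare (20 : ℤ) := by
      rintro ⟨s, hs⟩
      rcases le_or_gt 5 |s| with h5 | h5
      · nlinarith [abs_mul_abs_self s]
      · obtain ⟨h1, h2⟩ := abs_lt.mp h5
        interval_cases s <;> norm_num at hs
    apply hns
    rw [← Rat.isSquare_intCast_iff]
    exact ⟨t + 5, by push_cast; linear_combination -hQ⟩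
  have hr3 : r + 3 ≠ 0 := by
    intro h3
    rw [h3] at h
    exact mul_ne_zero hr (pow_ne_zero 3 hQ) (by linear_combination -h)
  obtain ⟨e, he⟩ : ∃ e : ℚ, e * (r + 3) = t ^ 2 + 10 * t + 5 := ⟨_, div_mul_cancel₀ _ hr3⟩
  have he3 : r * (e ^ 3 - t) = 27 * t := by
    apply mul_left_cancel₀ (pow_ne_zero 3 hr3)
    rw [← he] at h
    linear_combination -h
  have hG : 3 * e ^ 4 + 24 * t * e - (t ^ 2 + 10 * t + 5) * (e ^ 3 - t) = 0 := by
    linear_combination (e ^ 3 - t) * he - e * he3
  have hq := pow_ne_zero 2 (quartic_ne_zero e)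
  -- eliminating `t` from `G` and a linear equation
  have elim : ∀ l1 l0 : ℚ, l1 * t + l0 = 0 →
      (-l0) ^ 3 + (10 - e ^ 3) * (-l0) ^ 2 * l1 + (5 - 10 * e ^ 3 + 24 * e) * (-l0) * l1 ^ 2 +
        (3 * e ^ 4 - 5 * e ^ 3) * l1 ^ 3 = 0 := by
    intro l1 l0 hl
    obtain rfl : l0 = -(l1 * t) := by linarith
    linear_combination l1 ^ 3 * hG
  set D := e ^ 2 - e - 1 - t * (e - 1) with hDdef
  set N := -12 * (3 + 6 * e - 3 * e ^ 2 - e ^ 3 + t) with hNdef
  have hD : D ≠ 0 := by
    intro hD
    apply hq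
    have := elim (1 - e) (e ^ 2 - e - 1) (by linear_combination hD)
    linear_combination this
  have hK : t ^ 2 + 4 * t - 1 ≠ 0 := by
    intro hK
    have hns : ¬ IsSquare (5 : ℤ) := by
      rintro ⟨s, hs⟩
      rcases le_or_gt 3 |s| with h5 | h5
      · nlinarith [abs_mul_abs_self s]
      · obtain ⟨h1, h2⟩ := abs_lt.mp h5
        interval_cases s <;> norm_num at hs
    apply hns
    rw [← Rat.isSquare_intCast_iff]
    exact ⟨t + 2, by push_cast; linear_combination -hK⟩
  set M := 36 * (-5 - 9 * e + 7 * e ^ 2 - 3 * t - t * e + 2 * t * e ^ 2) with hMdef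
  have hid : (M * D) ^ 2 * D = (t ^ 2 + 4 * t - 1) ^ 2 * (N * (N + 9 * D) * (N - 16 * D)) := by
    simp only [hMdef, hDdef, hNdef]
    linear_combination (
      -(-1728 * t ^ 4 * e ^ 2 + 2448 * t ^ 4 * e + 1008 * t ^ 4 + 6192 * t ^ 3 * e ^ 4
        - 15696 * t ^ 3 * e ^ 3 - 15408 * t ^ 3 * e ^ 2 + 31248 * t ^ 3 * e + 16848 * t ^ 3
        + 1728 * t ^ 2 * e ^ 6 - 1008 * t ^ 2 * e ^ 5 + 53424 * t ^ 2 * e ^ 4
        - 148176 * t ^ 2 * e ^ 3 - 27936 * t ^ 2 * e ^ 2 + 160272 * t ^ 2 * e + 61488 * t ^ 2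
        + 12096 * t * e ^ 6 - 26064 * t * e ^ 5 + 117504 * t * e ^ 4 - 291312 * t * e ^ 3
        + 33552 * t * e ^ 2 + 218736 * t * e + 59760 * t + 21168 * e ^ 6 - 83232 * e ^ 5
        + 24480 * e ^ 4 + 168336 * e ^ 3 - 48384 * e ^ 2 - 113184 * e - 28512)) * (-hG)
  have hcurve : (M / (t ^ 2 + 4 * t - 1)) ^ 2 = N / D * (N / D + 9) * (N / D - 16) := by
    generalize t ^ 2 + 4 * t - 1 = K at hid hK ⊢
    field_simp
    linear_combination hid
  have lin : ∀ U, N / D = U → N - U * D = 0 := by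
    intro U hU
    rw [← hU, div_mul_cancel₀ _ hD, sub_self]
  rcases abscissa_cases hcurve with hU | hU | hU | hU | hU <;> have hl := lin _ hU <;>
    simp only [hNdef, hDdef] at hl
  · exfalso
    have := elim (-12) (12 * e ^ 3 + 36 * e ^ 2 - 72 * e - 36) (by linear_combination hl)
    apply hq
    linear_combination (-1 / 5184 : ℚ) * this
  · have := elim (-9 * e - 3) (12 * e ^ 3 + 45 * e ^ 2 - 81 * e - 45) (by linear_combination hl)
    have h1 : (4 * e + 5) ^ 2 = 0 := by
      apply mul_right_cancel₀ hq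
      linear_combination (1 / 81 : ℚ) * this
    have he' : e = -5 / 4 := by have := pow_eq_zero_iff two_ne_zero |>.mp h1; linarith
    subst he'
    left; linarith
  · have := elim (16 * e - 28) (12 * e ^ 3 + 20 * e ^ 2 - 56 * e - 20) (by linear_combination hl)
    have h1 : (6 * e - 5) ^ 2 = 0 := by
      apply mul_right_cancel₀ hq
      linear_combination (-1 / 64 : ℚ) * this
    have he' : e = 5 / 6 := by have := pow_eq_zero_iff two_ne_zero |>.mp h1; linarith
    subst he'
    right; left; linarith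
  · have := elim (36 * e - 48) (12 * e ^ 3 - 36 * e) (by linear_combination hl)
    have h1 : e * (e - 5) = 0 := by
      apply mul_right_cancel₀ hq
      linear_combination (-1 / 5184 : ℚ) * this
    rcases mul_eq_zero.mp h1 with he' | he'
    · subst he'
      exact absurd (by linarith : t = 0) ht
    · obtain rfl : e = 5 := by linarith
      right; right; left; linarith
  · have := elim (-4 * e - 8) (12 * e ^ 3 + 40 * e ^ 2 - 76 * e - 40) (by linear_combination hl)
    have h1 : (3 * e - 5) * (3 * e + 10) = 0 := by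
      apply mul_right_cancel₀ hq
      linear_combination (1 / 64 : ℚ) * this
    rcases mul_eq_zero.mp h1 with he' | he'
    · obtain rfl : e = 5 / 3 := by linarith
      exact absurd (by linarith : t = 0) ht
    · obtain rfl : e = -10 / 3 := by linarith
      right; right; right; linarith

end FLTAgent.X015
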