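import Mathlib

/-!
# Two-descent on `y² = U (U + 9) (U - 16)` (a model of the modular curve of level 15)

Elementary arithmetic: `no_simultaneous` (an infinite descent showing that `u² + 9 e²` and
`u² - 16 e²` are not both squares when `e` and the second square root are nonzero),
`eq_sixteen` (its rational form) and `descent_classes` (the image of the descent map on a
rational point written as `m / n`).
-/

set_option autoImplicit false

namespace FLTAgent.X015

lemma three_dvd_of_sq_add_sq {x y : ℤ} (h : (3 : ℤ) ∣ x ^ 2 + y ^ 2) :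
    (3 : ℤ) ∣ x ∧ (3 : ℤ) ∣ y := by
  have key : ∀ a b : ZMod 3, a ^ 2 + b ^ 2 = 0 → a = 0 ∧ b = 0 := by decide
  have h' := (ZMod.intCast_zmod_eq_zero_iff_dvd (x ^ 2 + y ^ 2) 3).mpr h
  push_cast at h'
  obtain ⟨hx, hy⟩ := key _ _ h'
  exact ⟨(ZMod.intCast_zmod_eq_zero_iff_dvd x 3).mp hx,
    (ZMod.intCast_zmod_eq_zero_iff_dvd y 3).mp hy⟩

lemma odd_sq_emod_eight {x : ℤ} (h : x % 2 = 1) : x ^ 2 % 8 = 1 := by
  have hx : x % 8 = 1 ∨ x % 8 = 3 ∨ x % 8 = 5 ∨ x % 8 = 7 := by omega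
  rw [pow_two, Int.mul_emod]
  rcases hx with h | h | h | h <;> rw [h] <;> norm_num

lemma isCoprime_two_of_odd {x : ℤ} (h : x % 2 = 1) : IsCoprime x 2 :=
  ⟨1, -(x / 2), by omega⟩

lemma odd_of_odd_mul {x y : ℤ} (h : (x * y) % 2 = 1) : x % 2 = 1 ∧ y % 2 = 1 := by
  rw [← Int.odd_iff, Int.odd_mul] at h
  exact ⟨Int.odd_iff.mp h.1, Int.odd_iff.mp h.2⟩

/-- Common factor `g` of the two sides of `γ² A = β² B`. -/
lemma split_sq {A B β γ : ℤ} (hβ : β ≠ 0) (hcop : IsCoprime β γ)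
    (h : γ ^ 2 * A = β ^ 2 * B) : ∃ g : ℤ, A = g * β ^ 2 ∧ B = g * γ ^ 2 := by
  have hd : β ^ 2 ∣ A := by
    apply (hcop.pow (m := 2) (n := 2)).dvd_of_dvd_mul_left
    exact ⟨B, h⟩
  obtain ⟨g, rfl⟩ := hd
  refine ⟨g, by ring, ?_⟩
  apply mul_left_cancel₀ (pow_ne_zero 2 hβ)
  linear_combination -h

/-- The descent step. -/
lemma descent_step {a b c d e : ℤ} (ha : a % 2 = 0) (hb : b % 2 = 1) (hab : IsCoprime a b)
    (hcd : IsCoprime c d) (ha0 : a ≠ 0) (hsum : a ^ 2 + b ^ 2 = c ^ 2 - d ^ 2)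
    (hprod : 3 * (a * b) = 4 * (c * d)) (he : 2 * e = a * b) :
    ∃ u' e' p' q' : ℤ, u' % 2 = 1 ∧ e' ≠ 0 ∧ q' ≠ 0 ∧ u' ^ 2 + 9 * e' ^ 2 = p' ^ 2 ∧
      u' ^ 2 - 16 * e' ^ 2 = q' ^ 2 ∧ e'.natAbs < e.natAbs := by
  have hb0 : b ≠ 0 := by omega
  obtain ⟨a', rfl⟩ : (4 : ℤ) ∣ a := by
    have h4 : (4 : ℤ) ∣ 3 * b * a := ⟨c * d, by linear_combination hprod⟩
    have hb4 : IsCoprime (4 : ℤ) (3 * b) := by
      have h2 := (isCoprime_two_of_odd hb).symm
      have : IsCoprime ((2 : ℤ) * 2) (3 * b) :=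
        IsCoprime.mul_left (IsCoprime.mul_right ⟨-1, 1, by norm_num⟩ h2)
          (IsCoprime.mul_right ⟨-1, 1, by norm_num⟩ h2)
      simpa using this
    exact hb4.dvd_of_dvd_mul_left h4
  have ha'0 : a' ≠ 0 := right_ne_zero_of_mul ha0
  have hcd' : c * d = 3 * (a' * b) := by linarith
  have hc0 : c ≠ 0 := left_ne_zero_of_mul (a := c) (b := d) (by simp [hcd', ha'0, hb0])
  have hd0 : d ≠ 0 := right_ne_zero_of_mul (a := c) (b := d) (by simp [hcd', ha'0, hb0])
  rcases Int.prime_three.dvd_or_dvd (⟨_, hcd'⟩ : (3 : ℤ) ∣ c * d) with ⟨c', rfl⟩ | ⟨d', rfl⟩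
  · -- `3 ∣ c`: impossible
    have h : c' * d = a' * b := by linarith
    obtain ⟨α, β, ⟨γ, rfl⟩, ⟨δ, rfl⟩, rfl⟩ :=
      exists_dvd_and_dvd_of_dvd_mul (⟨d, h.symm⟩ : c' ∣ a' * b)
    obtain ⟨hβ, hδ⟩ := odd_of_odd_mul hb
    have hαβ : α * β ≠ 0 := right_ne_zero_of_mul hc0
    have hd : d = γ * δ := mul_left_cancel₀ hαβ (by linear_combination h)
    subst hd
    have hβ0 : β ≠ 0 := right_ne_zero_of_mul hαβ
    have hα0 : α ≠ 0 := left_ne_zero_of_mul hαβ
    have hβγ : IsCoprime β γ := hcd.of_mul_left_right.of_mul_left_right.of_mul_right_left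
    have hrel : γ ^ 2 * (16 * α ^ 2 + δ ^ 2) = β ^ 2 * (9 * α ^ 2 - δ ^ 2) := by
      linear_combination hsum
    obtain ⟨g, hA, hB⟩ := split_sq hβ0 hβγ hrel
    have hαδ : IsCoprime α δ := hab.of_mul_left_right.of_mul_left_left.of_mul_right_right
    have hg25 : g ∣ 25 := by
      obtain ⟨x, y, hxy⟩ := (hαδ.pow (m := 2) (n := 2))
      exact ⟨x * (β ^ 2 + γ ^ 2) + y * (9 * β ^ 2 - 16 * γ ^ 2),
        by linear_combination -25 * hxy + (x + 9 * y) * hA + (x - 16 * y) * hB⟩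
    have hg8 : g % 8 = 1 := by
      have h8 : (g * β ^ 2) % 8 = 1 := by
        rw [← hA]
        have := odd_sq_emod_eight hδ
        omega
      rwa [Int.mul_emod, odd_sq_emod_eight hβ, mul_one, Int.emod_emod] at h8
    have hg : g = 1 ∨ g = 25 := by
      have h1 := Int.le_of_dvd (by norm_num) hg25
      have h2 : 0 < g := by
        have : 0 < g * β ^ 2 := by rw [← hA]; positivity
        exact pos_of_mul_pos_left this (sq_nonneg β)
      interval_cases g <;> omega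
    have h3 : (3 : ℤ) ∣ δ ^ 2 + γ ^ 2 := by
      refine ⟨3 * α ^ 2 - 8 * γ ^ 2 * ((g - 1) / 24), ?_⟩
      rcases hg with rfl | rfl <;> norm_num at hB ⊢ <;> linarith
    obtain ⟨h3δ, h3γ⟩ := three_dvd_of_sq_add_sq h3
    exact absurd (hcd.isUnit_of_dvd' (dvd_mul_right 3 _) (dvd_mul_of_dvd_left h3γ δ))
      Int.prime_three.not_isUnit
  · -- `3 ∣ d`: descent
    have h : c * d' = a' * b := by linarith
    obtain ⟨α, β, ⟨γ, rfl⟩, ⟨δ, rfl⟩, rfl⟩ :=
      exists_dvd_and_dvd_of_dvd_mul (⟨d', h.symm⟩ : c ∣ a' * b)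
    obtain ⟨hβ, hδ⟩ := odd_of_odd_mul hb
    have hd : d' = γ * δ := mul_left_cancel₀ hc0 (by linear_combination h)
    subst hd
    have hα0 : α ≠ 0 := left_ne_zero_of_mul hc0
    have hβ0 : β ≠ 0 := right_ne_zero_of_mul hc0
    have hδ0 : δ ≠ 0 := by omega
    have hγ0 : γ ≠ 0 := right_ne_zero_of_mul ha'0
    have hβγ : IsCoprime β γ := hcd.of_mul_left_right.of_mul_right_right.of_mul_right_left
    have hrel : γ ^ 2 * (16 * α ^ 2 + 9 * δ ^ 2) = β ^ 2 * (α ^ 2 - δ ^ 2) := by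
      linear_combination hsum
    obtain ⟨g, hA, hB⟩ := split_sq hβ0 hβγ hrel
    have hαδ : IsCoprime α δ := hab.of_mul_left_right.of_mul_left_left.of_mul_right_right
    have hg25 : g ∣ 25 := by
      obtain ⟨x, y, hxy⟩ := (hαδ.pow (m := 2) (n := 2))
      exact ⟨x * (β ^ 2 + 9 * γ ^ 2) + y * (β ^ 2 - 16 * γ ^ 2),
        by linear_combination -25 * hxy + (x + y) * hA + (9 * x - 16 * y) * hB⟩
    have hg8 : g % 8 = 1 := by
      have h8 : (g * β ^ 2) % 8 = 1 := by
        rw [← hA]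
        have := odd_sq_emod_eight hδ
        omega
      rwa [Int.mul_emod, odd_sq_emod_eight hβ, mul_one, Int.emod_emod] at h8
    have hg : g = 1 ∨ g = 25 := by
      have h1 := Int.le_of_dvd (by norm_num) hg25
      have h2 : 0 < g := by
        have : 0 < g * β ^ 2 := by rw [← hA]; positivity
        exact pos_of_mul_pos_left this (sq_nonneg β)
      interval_cases g <;> omega
    have hlt : γ.natAbs < e.natAbs := by
      have he' : e = 2 * (α * β * δ) * γ :=
        mul_left_cancel₀ (two_ne_zero (α := ℤ)) (by linear_combination he)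
      rw [he', Int.natAbs_mul, Int.natAbs_mul]
      refine lt_mul_of_one_lt_left (Int.natAbs_pos.mpr hγ0) ?_
      have : 0 < (α * β * δ).natAbs :=
        Int.natAbs_pos.mpr (mul_ne_zero (mul_ne_zero hα0 hβ0) hδ0)
      simp only [Int.reduceAbs]
      omega
    rcases hg with rfl | rfl
    · exact ⟨β, γ, 5 * α, 5 * δ, hβ, hγ0, mul_ne_zero (by norm_num) hδ0,
        by linear_combination -hA - 9 * hB, by linear_combination -hA + 16 * hB, hlt⟩
    · refine ⟨β, γ, α, δ, hβ, hγ0, hδ0, ?_, ?_, hlt⟩ <;> linarith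

/-- No solution with `u` odd of the simultaneous equations `u²+9e² = p²`, `u²-16e² = q²`. -/
lemma no_simultaneous_odd : ∀ (n : ℕ) (u e p q : ℤ), e.natAbs = n → u % 2 = 1 → e ≠ 0 → q ≠ 0 →
    u ^ 2 + 9 * e ^ 2 = p ^ 2 → u ^ 2 - 16 * e ^ 2 = q ^ 2 → False := by
  intro n
  induction n using Nat.strong_induction_on with
  | _ n IH =>
  intro u e p q hn hu he hq hp hq2
  -- reduce to `u`, `e` coprime
  by_cases hg : Int.gcd u e = 1
  swap
  · obtain ⟨l, hl, hlg⟩ := Nat.exists_prime_and_dvd hg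
    have hlu : (l : ℤ) ∣ u := (Int.natCast_dvd_natCast.mpr hlg).trans (Int.gcd_dvd_left u e)
    have hle : (l : ℤ) ∣ e := (Int.natCast_dvd_natCast.mpr hlg).trans (Int.gcd_dvd_right u e)
    have hlp : (l : ℤ) ∣ p := by
      rw [← Int.pow_dvd_pow_iff two_ne_zero, ← hp]
      exact dvd_add (pow_dvd_pow_of_dvd hlu 2) (dvd_mul_of_dvd_right (pow_dvd_pow_of_dvd hle 2) 9)
    have hlq : (l : ℤ) ∣ q := by
      rw [← Int.pow_dvd_pow_iff two_ne_zero, ← hq2]
      exact dvd_sub (pow_dvd_pow_of_dvd hlu 2) (dvd_mul_of_dvd_right (pow_dvd_pow_of_dvd hle 2) 16)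
    obtain ⟨u', rfl⟩ := hlu
    obtain ⟨e', rfl⟩ := hle
    obtain ⟨p', rfl⟩ := hlp
    obtain ⟨q', rfl⟩ := hlq
    have hl0 : (l : ℤ) ^ 2 ≠ 0 := pow_ne_zero 2 (by exact_mod_cast hl.ne_zero)
    refine IH e'.natAbs ?_ u' e' p' q' rfl (odd_of_odd_mul hu).2 (right_ne_zero_of_mul he)
      (right_ne_zero_of_mul hq) (mul_left_cancel₀ hl0 (by linear_combination hp))
      (mul_left_cancel₀ hl0 (by linear_combination hq2))
    rw [← hn, Int.natAbs_mul, Int.natAbs_natCast]
    exact lt_mul_of_one_lt_left (Int.natAbs_pos.mpr (right_ne_zero_of_mul he)) hl.one_lt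
  have hue : IsCoprime u e := Int.isCoprime_iff_gcd_eq_one.mpr hg
  have hu3 : ¬ (3 : ℤ) ∣ u := by
    intro h3
    have h : (3 : ℤ) ∣ q ^ 2 + e ^ 2 := by
      have h' : q ^ 2 + e ^ 2 = u ^ 2 - 15 * e ^ 2 := by linear_combination -hq2
      rw [h']
      exact dvd_sub (dvd_pow h3 two_ne_zero) (dvd_mul_of_dvd_left (by norm_num) _)
    exact (Int.prime_three).not_isUnit (hue.isUnit_of_dvd' h3 (three_dvd_of_sq_add_sq h).2)
  have hu3' : IsCoprime u 3 := ((Int.prime_three).coprime_iff_not_dvd.mpr hu3).symm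
  have hu4 : IsCoprime u 4 := by
    have := (isCoprime_two_of_odd hu)
    simpa using this.mul_right this
  have hu0 : u ≠ 0 := by omega
  -- the two Pythagorean triples
  have hcq : IsCoprime q (4 * e) := by
    have h1 : IsCoprime (u ^ 2) (4 * e) := (hu4.mul_right hue).pow_left
    have h2 : q ^ 2 + (4 * e) * (4 * e) = u ^ 2 := by linear_combination -hq2
    rw [← h2] at h1
    exact (IsCoprime.pow_left_iff (by norm_num)).mp h1.of_add_mul_left_left
  have hqodd : q % 2 = 1 := by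
    have h1 : q ^ 2 % 2 = 1 := by
      have : u ^ 2 % 2 = 1 := by rw [pow_two, Int.mul_emod, hu]; norm_num
      omega
    rw [pow_two] at h1
    exact (odd_of_odd_mul h1).1
  have hT1 : PythagoreanTriple q (4 * e) |u| := by
    show q * q + 4 * e * (4 * e) = |u| * |u|
    rw [abs_mul_abs_self]
    linear_combination -hq2
  obtain ⟨a, b, hqab, heab, huab, hab, habpar, -⟩ :=
    hT1.coprime_classification' (Int.isCoprime_iff_gcd_eq_one.mp hcq) hqodd (abs_pos.mpr hu0)
  have hp0 : p ≠ 0 := by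
    rintro rfl
    nlinarith [sq_nonneg u, mul_self_pos.mpr he]
  have habs : |u| % 2 = 1 := by
    rcases abs_choice u with h | h <;> rw [h] <;> omega
  have hcu : IsCoprime |u| (3 * e) := (hu3'.mul_right hue).abs_left
  have hT2 : PythagoreanTriple |u| (3 * e) |p| := by
    show |u| * |u| + 3 * e * (3 * e) = |p| * |p|
    rw [abs_mul_abs_self, abs_mul_abs_self]
    linear_combination hp
  obtain ⟨c, d, hucd, hecd, -, hcd, hcdpar, -⟩ :=
    hT2.coprime_classification' (Int.isCoprime_iff_gcd_eq_one.mp hcu) habs (abs_pos.mpr hp0)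
  have hsum : a ^ 2 + b ^ 2 = c ^ 2 - d ^ 2 := huab.symm.trans hucd
  have hprod : 3 * (a * b) = 4 * (c * d) :=
    mul_left_cancel₀ (two_ne_zero (α := ℤ)) (by linear_combination (-3) * heab + 4 * hecd)
  have he2 : 2 * e = a * b :=
    mul_left_cancel₀ (two_ne_zero (α := ℤ)) (by linear_combination heab)
  have hab' : IsCoprime a b := Int.isCoprime_iff_gcd_eq_one.mpr hab
  have hcd' : IsCoprime c d := Int.isCoprime_iff_gcd_eq_one.mpr hcd
  have hab0 : a * b ≠ 0 := he2 ▸ mul_ne_zero two_ne_zero he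
  obtain ⟨u', e', p', q', h1, h2, h3, h4, h5, h6⟩ :
      ∃ u' e' p' q' : ℤ, u' % 2 = 1 ∧ e' ≠ 0 ∧ q' ≠ 0 ∧ u' ^ 2 + 9 * e' ^ 2 = p' ^ 2 ∧
        u' ^ 2 - 16 * e' ^ 2 = q' ^ 2 ∧ e'.natAbs < e.natAbs := by
    rcases habpar with ⟨ha, hb⟩ | ⟨ha, hb⟩
    · exact descent_step ha hb hab' hcd' (left_ne_zero_of_mul hab0) hsum hprod he2
    · exact descent_step hb ha hab'.symm hcd' (right_ne_zero_of_mul hab0)
        (by linear_combination hsum) (by linear_combination hprod) (by linear_combination he2)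
  exact IH _ (hn ▸ h6) u' e' p' q' rfl h1 h2 h3 h4 h5

/-- No solution at all of `u²+9e² = p²`, `u²-16e² = q²` with `e, q ≠ 0`. -/
lemma no_simultaneous : ∀ (n : ℕ) (u e p q : ℤ), e.natAbs = n → e ≠ 0 → q ≠ 0 →
    u ^ 2 + 9 * e ^ 2 = p ^ 2 → u ^ 2 - 16 * e ^ 2 = q ^ 2 → False := by
  intro n
  induction n using Nat.strong_induction_on with
  | _ n IH =>
  intro u e p q hn he hq hp hq2
  rcases Int.emod_two_eq_zero_or_one u with hu | hu
  swap
  · exact no_simultaneous_odd n u e p q hn hu he hq hp hq2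
  rcases Int.emod_two_eq_zero_or_one e with he2 | he2
  · -- both even
    obtain ⟨u', rfl⟩ : (2 : ℤ) ∣ u := Int.dvd_of_emod_eq_zero hu
    obtain ⟨e', rfl⟩ : (2 : ℤ) ∣ e := Int.dvd_of_emod_eq_zero he2
    obtain ⟨p', rfl⟩ : (2 : ℤ) ∣ p :=
      Int.prime_two.dvd_of_dvd_pow (n := 2) ⟨2 * u' ^ 2 + 18 * e' ^ 2, by linear_combination -hp⟩
    obtain ⟨q', rfl⟩ : (2 : ℤ) ∣ q :=
      Int.prime_two.dvd_of_dvd_pow (n := 2) ⟨2 * u' ^ 2 - 32 * e' ^ 2, by linear_combination -hq2⟩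
    have he' : e' ≠ 0 := right_ne_zero_of_mul he
    exact IH e'.natAbs (by omega) u' e' p' q' rfl he' (right_ne_zero_of_mul hq)
      (by linarith) (by linarith)
  · -- `u` even, `e` odd: translate by `(16, 0)`
    have hp1 : p ^ 2 % 8 = 1 := by
      have hp2 : p % 2 = 1 := by
        have h1 : p ^ 2 % 2 = 1 := by
          have h2 : u ^ 2 % 2 = 0 := by rw [pow_two, Int.mul_emod, hu]; norm_num
          have h3 := odd_sq_emod_eight he2
          omega
        rw [pow_two] at h1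
        exact (odd_of_odd_mul h1).1
      exact odd_sq_emod_eight hp2
    obtain ⟨w, rfl⟩ : (4 : ℤ) ∣ u := by
      have h3 := odd_sq_emod_eight he2
      obtain ⟨v, rfl⟩ : (2 : ℤ) ∣ u := Int.dvd_of_emod_eq_zero hu
      rcases Int.emod_two_eq_zero_or_one v with hv | hv
      · omega
      · have h4 := odd_sq_emod_eight hv
        have : (2 * v) ^ 2 = 4 * v ^ 2 := by ring
        omega
    obtain ⟨q', rfl⟩ : (4 : ℤ) ∣ q :=
      (Int.pow_dvd_pow_iff two_ne_zero).mp ⟨w ^ 2 - e ^ 2, by linear_combination -hq2⟩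
    have hp2 : p % 2 = 1 := by
      rcases Int.emod_two_eq_zero_or_one p with h | h
      · obtain ⟨p', rfl⟩ : (2 : ℤ) ∣ p := Int.dvd_of_emod_eq_zero h
        have : (2 * p') ^ 2 = 4 * p' ^ 2 := by ring
        omega
      · exact h
    exact no_simultaneous_odd _ p q' (5 * w) (5 * e) rfl hp2 (right_ne_zero_of_mul hq)
      (mul_ne_zero (by norm_num) he) (by linarith) (by linarith)

/-- The rational squares `W` such that `W + 9` and `W - 16` are squares. -/
lemma eq_sixteen {W : ℚ} (h0 : IsSquare W) (h9 : IsSquare (W + 9)) (h16 : IsSquare (W - 16)) :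
    W = 16 := by
  obtain ⟨w, rfl⟩ := h0
  by_contra hne
  obtain ⟨u, e, he, rfl⟩ : ∃ u e : ℤ, e ≠ 0 ∧ w = (u : ℚ) / e :=
    ⟨w.num, w.den, by exact_mod_cast w.den_ne_zero, by simp [Rat.num_div_den]⟩
  have he' : (e : ℚ) ≠ 0 := by exact_mod_cast he
  have hsq : IsSquare ((e : ℚ) * e) := ⟨e, rfl⟩
  obtain ⟨p, hp⟩ : IsSquare (u ^ 2 + 9 * e ^ 2 : ℤ) := by
    rw [← Rat.isSquare_intCast_iff]
    have e1 : ((u ^ 2 + 9 * e ^ 2 : ℤ) : ℚ) =
        ((u : ℚ) / e * (u / e) + 9) * (e * e) := by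
      push_cast
      field_simp
    rw [e1]
    exact h9.mul hsq
  obtain ⟨q, hq⟩ : IsSquare (u ^ 2 - 16 * e ^ 2 : ℤ) := by
    rw [← Rat.isSquare_intCast_iff]
    have e1 : ((u ^ 2 - 16 * e ^ 2 : ℤ) : ℚ) =
        ((u : ℚ) / e * (u / e) - 16) * (e * e) := by
      push_cast
      field_simp
    rw [e1]
    exact h16.mul hsq
  refine no_simultaneous _ u e p q rfl he ?_ (by linear_combination hp) (by linear_combination hq)
  rintro rfl
  apply hne
  have : ((u : ℚ) ^ 2 - 16 * e ^ 2) = 0 := by exact_mod_cast hq.trans (mul_zero 0)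
  field_simp
  linear_combination this

/-- The image of the descent map. -/
lemma descent_classes {m n y : ℤ} (hn : 0 < n) (hcop : IsCoprime m n) (hsq : IsSquare n)
    (hy : y ≠ 0) (h : m * (m + 9 * n) * (m - 16 * n) = y ^ 2) :
    (IsSquare m ∨ IsSquare (-m)) ∧ (IsSquare (m + 9 * n) ∨ IsSquare (5 * (m + 9 * n))) := by
  have hm0 : m ≠ 0 := by
    rintro rfl
    exact hy (pow_eq_zero_iff two_ne_zero |>.mp (by linarith))
  have hn3 : ∀ x : ℤ, IsCoprime x n → (3 : ℤ) ∣ x → n % 3 = 1 := by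
    intro x hx hx3
    obtain ⟨s, rfl⟩ := hsq
    have key : ∀ a : ZMod 3, a ≠ 0 → a * a = 1 := by decide
    have hs : (s : ZMod 3) ≠ 0 := fun hs =>
      Int.prime_three.not_isUnit (hx.isUnit_of_dvd' hx3
        (dvd_mul_of_dvd_left ((ZMod.intCast_zmod_eq_zero_iff_dvd s 3).mp hs) s))
    have h1 := (ZMod.intCast_eq_intCast_iff' (s * s) 1 3).mp (by push_cast; exact key _ hs)
    simpa using h1
  obtain ⟨A, hA, k, hk3, rfl⟩ :
      ∃ A : ℤ, (A = 1 ∨ A = 9) ∧ ∃ k : ℤ, (A = 1 → ¬ (3 : ℤ) ∣ k) ∧ m = A * k := by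
    by_cases h3 : (3 : ℤ) ∣ m
    · have hn1 := hn3 m hcop h3
      obtain ⟨l, rfl⟩ := h3
      refine ⟨9, Or.inr rfl, l / 3, by norm_num, ?_⟩
      suffices (3 : ℤ) ∣ l by omega
      by_contra hl
      obtain ⟨y', rfl⟩ : (3 : ℤ) ∣ y := Int.prime_three.dvd_of_dvd_pow (n := 2)
        ⟨l * (3 * l + 9 * n) * (3 * l - 16 * n), by linear_combination -h⟩
      have h' : l * (l + 3 * n) * (3 * l - 16 * n) = y' ^ 2 := by linarith
      have key : ∀ a b c : ZMod 3, a ≠ 0 → b = 1 → a * (a + 3 * b) * (3 * a - 16 * b) ≠ c ^ 2 := by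
        decide
      apply key (l : ZMod 3) (n : ZMod 3) (y' : ZMod 3)
      · rwa [Ne, ZMod.intCast_zmod_eq_zero_iff_dvd]
      · simpa using (ZMod.intCast_eq_intCast_iff' n 1 3).mpr (by simpa using hn1)
      · have := congrArg (fun z : ℤ => (z : ZMod 3)) h'
        push_cast at this
        exact this
    · exact ⟨1, Or.inl rfl, m, fun _ => h3, (one_mul m).symm⟩
  obtain ⟨B, hB, j, hj2, rfl⟩ :
      ∃ B : ℤ, (B = 1 ∨ B = 4 ∨ B = 16) ∧ ∃ j : ℤ, (B ≠ 16 → j % 2 = 1) ∧ k = B * j := by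
    rcases Int.emod_two_eq_zero_or_one k with hk | hk
    swap
    · exact ⟨1, Or.inl rfl, k, fun _ => hk, (one_mul k).symm⟩
    have hnodd : n % 2 = 1 := by
      by_contra hn2
      exact Int.prime_two.not_isUnit (hcop.isUnit_of_dvd'
        (dvd_mul_of_dvd_right (Int.dvd_of_emod_eq_zero hk) A)
        (Int.dvd_of_emod_eq_zero (by omega)))
    have hn8 : n % 8 = 1 := by
      obtain ⟨s, rfl⟩ := hsq
      have := odd_sq_emod_eight (odd_of_odd_mul hnodd).1
      rwa [pow_two] at this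
    by_cases h16 : (16 : ℤ) ∣ k
    · obtain ⟨j, rfl⟩ := h16
      exact ⟨16, by simp, j, fun h => absurd rfl h, rfl⟩
    have hkv : (∃ l, k = 4 * l ∧ l % 2 = 1) ∨ (∃ l, k = 2 * l ∧ l % 2 = 1) ∨
        (∃ l, k = 8 * l ∧ l % 2 = 1) := by
      by_cases h4 : k % 4 = 0
      · by_cases h8 : k % 8 = 0
        · exact Or.inr (Or.inr ⟨k / 8, by omega, by omega⟩)
        · exact Or.inl ⟨k / 4, by omega, by omega⟩
      · exact Or.inr (Or.inl ⟨k / 2, by omega, by omega⟩)
    rcases hkv with ⟨l, hl, hlodd⟩ | ⟨l, rfl, hl⟩ | ⟨l, rfl, hl⟩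
    · exact ⟨4, by simp, l, fun _ => hlodd, hl⟩
    · exfalso
      obtain ⟨y', rfl⟩ : (2 : ℤ) ∣ y := Int.prime_two.dvd_of_dvd_pow (n := 2)
        ⟨A * l * (A * (2 * l) + 9 * n) * (A * (2 * l) - 16 * n), by linear_combination -h⟩
      have h' : A * l * (A * (2 * l) + 9 * n) * (A * l - 8 * n) = y' ^ 2 := by linarith
      have key : ∀ a x b c : ZMod 8, (a = 1 ∨ a = 9) → (x = 1 ∨ x = 3 ∨ x = 5 ∨ x = 7) → b = 1 →
          a * x * (a * (2 * x) + 9 * b) * (a * x - 8 * b) ≠ c ^ 2 := by decide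
      apply key (A : ZMod 8) (l : ZMod 8) (n : ZMod 8) (y' : ZMod 8)
      · rcases hA with rfl | rfl <;> simp
      · have hl8 : l % 8 = 1 ∨ l % 8 = 3 ∨ l % 8 = 5 ∨ l % 8 = 7 := by omega
        rw [← ZMod.intCast_mod l 8]
        rcases hl8 with h | h | h | h <;> simp [h]
      · rw [← ZMod.intCast_mod n 8]
        simp [hn8]
      · have := congrArg (fun z : ℤ => (z : ZMod 8)) h'
        push_cast at this
        exact this
    · exfalso
      obtain ⟨y', rfl⟩ : (8 : ℤ) ∣ y := (Int.pow_dvd_pow_iff two_ne_zero).mp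
        ⟨A * l * (A * (8 * l) + 9 * n) * (A * l - 2 * n), by linear_combination -h⟩
      have h' : A * l * (A * (8 * l) + 9 * n) * (A * l - 2 * n) = y' ^ 2 := by linarith
      have key : ∀ a x b c : ZMod 8, (a = 1 ∨ a = 9) → (x = 1 ∨ x = 3 ∨ x = 5 ∨ x = 7) → b = 1 →
          a * x * (a * (8 * x) + 9 * b) * (a * x - 2 * b) ≠ c ^ 2 := by decide
      apply key (A : ZMod 8) (l : ZMod 8) (n : ZMod 8) (y' : ZMod 8)
      · rcases hA with rfl | rfl <;> simp
      · have hl8 : l % 8 = 1 ∨ l % 8 = 3 ∨ l % 8 = 5 ∨ l % 8 = 7 := by omega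
        rw [← ZMod.intCast_mod l 8]
        rcases hl8 with h | h | h | h <;> simp [h]
      · rw [← ZMod.intCast_mod n 8]
        simp [hn8]
      · have := congrArg (fun z : ℤ => (z : ZMod 8)) h'
        push_cast at this
        exact this
  obtain ⟨Q, hQ, hAQ⟩ : ∃ Q : ℤ, A * Q = 9 ∧ (Q = 1 ∨ (Q = 9 ∧ ¬ (3 : ℤ) ∣ B * j)) := by
    rcases hA with rfl | rfl
    · exact ⟨9, by norm_num, Or.inr ⟨rfl, hk3 rfl⟩⟩
    · exact ⟨1, by norm_num, Or.inl rfl⟩
  obtain ⟨R, hR, hBR⟩ : ∃ R : ℤ, B * R = 16 ∧ (R = 1 ∨ (IsCoprime j R)) := by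
    rcases hB with rfl | rfl | rfl
    · refine ⟨16, by norm_num, Or.inr ?_⟩
      simpa using ((isCoprime_two_of_odd (hj2 (by norm_num))).pow_right (n := 4))
    · refine ⟨4, by norm_num, Or.inr ?_⟩
      simpa using ((isCoprime_two_of_odd (hj2 (by norm_num))).pow_right (n := 2))
    · exact ⟨1, by norm_num, Or.inl rfl⟩
  have hjn : IsCoprime j n := hcop.of_mul_left_right.of_mul_left_right
  have hjQ : IsCoprime j Q := by
    rcases hAQ with rfl | ⟨rfl, h3⟩
    · exact isCoprime_one_right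
    · have h3j : ¬ (3 : ℤ) ∣ j := fun hd => h3 (dvd_mul_of_dvd_right hd B)
      simpa using ((Int.prime_three.coprime_iff_not_dvd.mpr h3j).symm.pow_right (n := 2))
  have hjR : IsCoprime j R := by
    rcases hBR with rfl | h
    · exact isCoprime_one_right
    · exact h
  have hjl : IsCoprime j (B * j + Q * n) := by
    rw [add_comm]
    exact (hjQ.mul_right hjn).add_mul_right_right B
  have hjh : IsCoprime j (A * j - R * n) := by
    have : A * j - R * n = -(R * n) + A * j := by ring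
    rw [this]
    exact (hjR.mul_right hjn).neg_right.add_mul_right_right A
  have hAB : A * B ≠ 0 := fun h => hm0 (by linear_combination j * h)
  have hdvd : A * B ∣ y := by
    refine (Int.pow_dvd_pow_iff two_ne_zero).mp ⟨j * (B * j + Q * n) * (A * j - R * n), ?_⟩
    rw [← h, ← hQ, ← hR]
    ring
  obtain ⟨y', rfl⟩ := hdvd
  have hmain : j * ((B * j + Q * n) * (A * j - R * n)) = y' ^ 2 := by
    apply mul_left_cancel₀ (pow_ne_zero 2 hAB)
    rw [← hQ, ← hR] at h
    linear_combination h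
  have hsAB : IsSquare (A * B) := by
    rcases hA with rfl | rfl <;> rcases hB with rfl | rfl | rfl <;>
      first
        | (refine ⟨1, ?_⟩; norm_num; done) | (refine ⟨2, ?_⟩; norm_num; done)
        | (refine ⟨4, ?_⟩; norm_num; done) | (refine ⟨3, ?_⟩; norm_num; done)
        | (refine ⟨6, ?_⟩; norm_num; done) | (refine ⟨12, ?_⟩; norm_num; done)
  refine ⟨?_, ?_⟩
  · obtain ⟨a, ha | ha⟩ := Int.sq_of_isCoprime (hjl.mul_right hjh) hmain
    · left
      rw [← mul_assoc]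
      exact hsAB.mul ⟨a, by rw [ha, pow_two]⟩
    · right
      rw [← mul_assoc, ← mul_neg]
      exact hsAB.mul ⟨a, by rw [ha, neg_neg, pow_two]⟩
  -- the class of `m + 9 n`
  generalize hmdef : A * (B * j) = M at h hcop hm0 ⊢
  generalize A * B * y' = Y at h hy
  have hcn : IsCoprime (M + 9 * n) n := hcop.add_mul_right_left 9
  have hMl : IsCoprime (M + 9 * n) (M - 16 * n) ∨ (5 : ℤ) ∣ M + 9 * n := by
    by_cases h5 : (5 : ℤ) ∣ M + 9 * n
    · exact Or.inr h5
    · left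
      have h25 : IsCoprime (M + 9 * n) (-(25 * n)) := by
        have := ((Nat.prime_iff_prime_int.mp Nat.prime_five).coprime_iff_not_dvd.mpr h5).symm.pow_right
          (n := 2)
        exact ((by simpa using this : IsCoprime (M + 9 * n) 25).mul_right hcn).neg_right
      have : M - 16 * n = -(25 * n) + (M + 9 * n) * 1 := by ring
      rw [this]
      exact h25.add_mul_left_right 1
  have hpos : 0 < M + 9 * n := by
    by_contra hle
    rcases eq_or_lt_of_le (not_lt.mp hle) with h0 | h0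
    · rw [h0] at h
      exact hy (pow_eq_zero_iff two_ne_zero |>.mp (by linarith))
    · have : 0 < M * (M - 16 * n) := by nlinarith
      nlinarith [sq_nonneg Y]
  -- `gcd (M + 9n, M)` is a square: it is `A`
  obtain ⟨a, ha⟩ : IsSquare A := by
    rcases hA with rfl | rfl
    exacts [⟨1, rfl⟩, ⟨3, rfl⟩]
  have hl : M + 9 * n = A * (B * j + Q * n) := by rw [← hmdef, ← hQ]; ring
  set l := B * j + Q * n with hldef
  have hl0 : 0 < l := by
    rcases hA with rfl | rfl <;> linarith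
  suffices IsSquare l ∨ IsSquare (5 * l) by
    rcases this with ⟨b, hb⟩ | ⟨b, hb⟩
    · exact Or.inl ⟨a * b, by rw [hl, hb, ha]; ring⟩
    · exact Or.inr ⟨a * b, by rw [hl, ← mul_assoc, mul_comm 5 A, mul_assoc, hb, ha]; ring⟩
  have hhr : M - 16 * n = B * (A * j - R * n) := by rw [← hmdef, ← hR]; ring
  set r := A * j - R * n with hrdef
  have hmain' : l * (j * r) = y' ^ 2 := by linear_combination hmain
  rcases hMl with hc | h5
  · rw [hl, hhr] at hc
    have hlr : IsCoprime l (j * r) :=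
      hjl.symm.mul_right hc.of_mul_left_right.of_mul_right_right
    obtain ⟨b, hb | hb⟩ := Int.sq_of_isCoprime hlr hmain'
    · exact Or.inl ⟨b, by rw [hb, pow_two]⟩
    · exfalso; nlinarith [sq_nonneg b]
  · have hp5 : Prime (5 : ℤ) := Nat.prime_iff_prime_int.mp Nat.prime_five
    have h5A : ¬ (5 : ℤ) ∣ A := by rcases hA with rfl | rfl <;> norm_num
    have h5l : (5 : ℤ) ∣ l := (hp5.dvd_or_dvd (hl ▸ h5)).resolve_left h5A
    have h5r : (5 : ℤ) ∣ r := by
      have : (5 : ℤ) ∣ B * r := by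
        rw [← hhr]
        have : M - 16 * n = (M + 9 * n) - 5 * (5 * n) := by ring
        rw [this]
        exact dvd_sub h5 (dvd_mul_right 5 _)
      refine (hp5.dvd_or_dvd this).resolve_left ?_
      rcases hB with rfl | rfl | rfl <;> norm_num
    obtain ⟨l', hl'⟩ := h5l
    obtain ⟨r', hr'⟩ := h5r
    have hn' : A * l' - B * r' = 5 * n := by
      apply mul_left_cancel₀ (a := (5 : ℤ)) (by norm_num)
      linear_combination -(A * hl') + B * hr' - hl + hhr
    obtain ⟨y'', rfl⟩ : (5 : ℤ) ∣ y' := hp5.dvd_of_dvd_pow (n := 2)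
      ⟨l' * (j * r), by rw [← hmain', hl']; ring⟩
    have hmain'' : l' * (j * r') = y'' ^ 2 := by
      rw [hl', hr'] at hmain'
      linarith
    have hjl' : IsCoprime l' j := by
      rw [hl'] at hjl
      exact hjl.symm.of_mul_left_right
    have hnl' : IsCoprime l' n := by
      rw [hl, hl'] at hcn
      exact hcn.of_mul_left_right.of_mul_left_right
    by_cases h55 : (5 : ℤ) ∣ l'
    · have h55r : (5 : ℤ) ∣ r' := by
        have : (5 : ℤ) ∣ B * r' := by
          rw [show B * r' = A * l' - 5 * n by linarith]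
          exact dvd_sub (dvd_mul_of_dvd_right h55 A) (dvd_mul_right 5 n)
        refine (hp5.dvd_or_dvd this).resolve_left ?_
        rcases hB with rfl | rfl | rfl <;> norm_num
      obtain ⟨l'', rfl⟩ := h55
      obtain ⟨r'', rfl⟩ := h55r
      obtain ⟨y3, rfl⟩ : (5 : ℤ) ∣ y'' := hp5.dvd_of_dvd_pow (n := 2)
        ⟨l'' * (j * (5 * r'')), by rw [← hmain'']; ring⟩
      have hlr : IsCoprime l'' r'' := by
        have hc : IsCoprime l'' (A * l'' - B * r'') := by
          rw [show A * l'' - B * r'' = n by linarith]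
          exact hnl'.of_mul_left_right
        have hc' : IsCoprime l'' (-(B * r'') + l'' * A) := by
          rwa [show -(B * r'') + l'' * A = A * l'' - B * r'' by ring]
        exact ((IsCoprime.neg_right_iff _ _).mp hc'.of_add_mul_left_right).of_mul_right_right
      obtain ⟨b, hb | hb⟩ := Int.sq_of_isCoprime (hjl'.of_mul_left_right.mul_right hlr)
        (show l'' * (j * r'') = y3 ^ 2 by linarith)
      · exact Or.inl ⟨5 * b, by rw [hl', hb]; ring⟩
      · exfalso; nlinarith [sq_nonneg b]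
    · have hlr : IsCoprime l' r' := by
        have hc : IsCoprime l' (A * l' - B * r') := by
          rw [hn']
          exact (hp5.coprime_iff_not_dvd.mpr h55).symm.mul_right hnl'
        have hc' : IsCoprime l' (-(B * r') + l' * A) := by
          rwa [show -(B * r') + l' * A = A * l' - B * r' by ring]
        exact ((IsCoprime.neg_right_iff _ _).mp hc'.of_add_mul_left_right).of_mul_right_right
      obtain ⟨b, hb | hb⟩ := Int.sq_of_isCoprime (hjl'.mul_right hlr) hmain''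
      · exact Or.inr ⟨5 * b, by rw [hl', hb]; ring⟩
      · exfalso; nlinarith [sq_nonneg b]

end FLTAgent.X015
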