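import Mathlib

/-!
# Parameters of the modular curves of levels 3 and 5 attached to a point of order 3 or 5

The point is translated to the origin with horizontal tangent, giving the Tate normal forms.
`par3` and `par5` are the resulting parameters; `par3_spec` and `par5_spec` express
`c₄³ / Δ` through them by direct computation, and `par_map` gives their behaviour under field
automorphisms.
-/

set_option autoImplicit false

open WeierstrassCurve WeierstrassCurve.Affine

namespace FLTAgent.X015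

variable {K : Type*} [Field K]

/-- The third coefficient of the translated model (the derivative in `y` at the point). -/
def tA3 (W : Affine K) (x y : K) : K := 2 * y + W.a₁ * x + W.a₃

/-- The slope of the tangent. -/
def tLam (W : Affine K) (x y : K) : K :=
  (3 * x ^ 2 + 2 * W.a₂ * x + W.a₄ - W.a₁ * y) / tA3 W x y

/-- The first coefficient of the translated model. -/
def tA1 (W : Affine K) (x y : K) : K := W.a₁ + 2 * tLam W x y

/-- The second coefficient of the translated model. -/
def tA2 (W : Affine K) (x y : K) : K :=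
  3 * x + W.a₂ - tLam W x y * W.a₁ - tLam W x y ^ 2

/-- The level 3 parameter. -/
def par3 (W : Affine K) (x y : K) : K := tA1 W x y ^ 3 / tA3 W x y - 27

/-- The Tate parameter of a point of order 5. -/
def tateB (W : Affine K) (x y : K) : K := -(tA2 W x y ^ 3) / tA3 W x y ^ 2

/-- The level 5 parameter. -/
def par5 (W : Affine K) (x y : K) : K := tateB W x y - (tateB W x y)⁻¹ - 11

lemma tA3_negY (W : Affine K) (x y : K) : tA3 W x (W.negY x y) = -tA3 W x y := by
  simp only [tA3, negY]
  ring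

lemma tLam_negY (W : Affine K) {x y : K} (hD : tA3 W x y ≠ 0) :
    tLam W x (W.negY x y) = -tLam W x y - W.a₁ := by
  have h : tLam W x y * tA3 W x y = 3 * x ^ 2 + 2 * W.a₂ * x + W.a₄ - W.a₁ * y :=
    div_mul_cancel₀ _ hD
  conv_lhs => rw [tLam, tA3_negY]
  rw [div_eq_iff (neg_ne_zero.mpr hD)]
  simp only [negY, tA3] at h ⊢
  linear_combination -h

lemma par3_negY (W : Affine K) {x y : K} (hD : tA3 W x y ≠ 0) :
    par3 W x (W.negY x y) = par3 W x y := by
  simp only [par3, tA1, tLam_negY W hD, tA3_negY]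
  field_simp
  ring

lemma par5_negY (W : Affine K) {x y : K} (hD : tA3 W x y ≠ 0) :
    par5 W x (W.negY x y) = par5 W x y := by
  have h : tA2 W x (W.negY x y) = tA2 W x y := by
    simp only [tA2, tLam_negY W hD]
    ring
  simp only [par5, tateB, h, tA3_negY, neg_sq]

/-- The parameters commute with field automorphisms fixing the coefficients. -/
lemma par_map (W : Affine K) (f : K →+* K) (h1 : f W.a₁ = W.a₁) (h2 : f W.a₂ = W.a₂)
    (h3 : f W.a₃ = W.a₃) (h4 : f W.a₄ = W.a₄) (x y : K) :
    f (par3 W x y) = par3 W (f x) (f y) ∧ f (par5 W x y) = par5 W (f x) (f y) := by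
  refine ⟨?_, ?_⟩ <;>
    simp [par3, par5, tateB, tA1, tA2, tA3, tLam, map_div₀, map_ofNat, h1, h2, h3, h4]

/-- `c₄` and the discriminant through the translated model. -/
lemma translated_invariants (W : Affine K) {x y : K} (h : W.Equation x y) (hD : tA3 W x y ≠ 0) :
    W.c₄ = (⟨tA1 W x y, tA2 W x y, tA3 W x y, 0, 0⟩ : WeierstrassCurve K).c₄ ∧
      W.Δ = (⟨tA1 W x y, tA2 W x y, tA3 W x y, 0, 0⟩ : WeierstrassCurve K).Δ := by
  set C : VariableChange K := ⟨1, x, tLam W x y, y⟩ with hC
  have hlam : tLam W x y * tA3 W x y = 3 * x ^ 2 + 2 * W.a₂ * x + W.a₄ - W.a₁ * y :=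
    div_mul_cancel₀ _ hD
  have heq := (W.equation_iff x y).mp h
  have hCW : C • (show WeierstrassCurve K from W) =
      ⟨tA1 W x y, tA2 W x y, tA3 W x y, 0, 0⟩ := by
    ext <;> simp only [hC, variableChange_a₁, variableChange_a₂, variableChange_a₃,
      variableChange_a₄, variableChange_a₆, inv_one, Units.val_one, one_pow, one_mul]
    · rfl
    · simp only [tA2]; ring
    · simp only [tA3]; ring
    · simp only [tA3] at hlam
      linear_combination -hlam
    · linear_combination -heq
  have h4 := variableChange_c₄ (show WeierstrassCurve K from W) C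
  have hΔ := variableChange_Δ (show WeierstrassCurve K from W) C
  rw [hCW] at h4 hΔ
  simp only [hC, inv_one, Units.val_one, one_pow, one_mul] at h4 hΔ
  exact ⟨h4.symm, hΔ.symm⟩

variable [DecidableEq K] {W : Affine K}

/-- Tripling a point is zero. -/
lemma order_three {x y : K} (h : W.Nonsingular x y)
    (hP : Point.some x y h + Point.some x y h + Point.some x y h = 0) :
    tA3 W x y ≠ 0 ∧ tA2 W x y = 0 := by
  have hy : y ≠ W.negY x y := by
    intro hy
    rw [Point.add_self_of_Y_eq hy, zero_add] at hP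
    exact Point.some_ne_zero h hP
  have hD : tA3 W x y ≠ 0 := by
    intro e
    apply hy
    simp only [tA3] at e
    simp only [negY]
    linear_combination e
  refine ⟨hD, ?_⟩
  have hsl : W.slope x x y y = tLam W x y := by
    rw [slope_of_Y_ne rfl hy, tLam, tA3]
    congr 1
    simp only [negY]
    ring
  have hneg := eq_neg_of_add_eq_zero_left hP
  rw [Point.add_self_of_Y_ne hy, Point.neg_some] at hneg
  have hx := (Point.some.inj hneg).1
  rw [hsl] at hx
  simp only [addX] at hx
  simp only [tA2]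
  linear_combination -hx

/-- The invariants of a curve with a point of order three. -/
lemma par3_spec {x y : K} (h : W.Nonsingular x y)
    (hP : Point.some x y h + Point.some x y h + Point.some x y h = 0) :
    W.c₄ ^ 3 * par3 W x y = W.Δ * (par3 W x y + 27) * (par3 W x y + 3) ^ 3 := by
  obtain ⟨hD, hA2⟩ := order_three h hP
  obtain ⟨h4, hΔ⟩ := translated_invariants W h.1 hD
  rw [h4, hΔ]
  simp only [par3, hA2, WeierstrassCurve.c₄, WeierstrassCurve.Δ, WeierstrassCurve.b₂,
    WeierstrassCurve.b₄, WeierstrassCurve.b₆, WeierstrassCurve.b₈]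
  field_simp
  ring

/-- The data of a point of order five and of its double. -/
lemma order_five {x y : K} (h : W.Nonsingular x y)
    (hP : (5 : ℕ) • Point.some x y h = 0) :
    tA3 W x y ≠ 0 ∧ tA2 W x y ≠ 0 ∧
      tA2 W x y ^ 3 - tA1 W x y * tA2 W x y * tA3 W x y + tA3 W x y ^ 2 = 0 ∧
      ∃ (x₂ y₂ : K) (h₂ : W.Nonsingular x₂ y₂),
        Point.some x y h + Point.some x y h = Point.some x₂ y₂ h₂ ∧
        tA3 W x₂ y₂ ≠ 0 ∧ par5 W x₂ y₂ = par5 W x y := by
  set P := Point.some x y h with hPdef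
  have hne : P ≠ 0 := Point.some_ne_zero h
  have h5 : P + P + (P + P) + P = 0 := by rw [← hP]; abel
  have h2P : P + P ≠ 0 := fun e => hne (by rw [e] at h5; simp at h5)
  have h3P : P + P + P ≠ 0 := by
    intro e
    apply h2P
    rw [show P + P + (P + P) + P = (P + P + P) + (P + P) by abel, e, zero_add] at h5
    exact h5
  have hy : y ≠ W.negY x y := fun hy => h2P (Point.add_self_of_Y_eq hy)
  have hD : tA3 W x y ≠ 0 := by
    intro e
    apply hy
    simp only [tA3] at e
    simp only [negY]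
    linear_combination e
  have hsl : W.slope x x y y = tLam W x y := by
    rw [slope_of_Y_ne rfl hy, tLam, tA3]
    congr 1
    simp only [negY]
    ring
  obtain ⟨x₂, y₂, hQ', hx₂, hy₂, hQ⟩ : ∃ (x₂ y₂ : K) (h₂ : W.Nonsingular x₂ y₂),
      x₂ = W.addX x x (tLam W x y) ∧ y₂ = W.addY x x y (tLam W x y) ∧
        P + P = Point.some x₂ y₂ h₂ :=
    ⟨W.addX x x (W.slope x x y y), W.addY x x y (W.slope x x y y),
      nonsingular_add h h fun hxy => hy hxy.right, by rw [hsl], by rw [hsl],
      Point.add_self_of_Y_ne hy⟩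
  set A1 := tA1 W x y with hA1
  set A2 := tA2 W x y with hA2
  set A3 := tA3 W x y with hA3
  set l := tLam W x y with hl
  have hx₂' : x₂ = x - A2 := by
    simp only [hx₂, hA2, tA2, ← hl, addX]
    ring
  have hy₂' : y₂ = A2 * l - y - W.a₁ * x₂ - W.a₃ := by
    simp only [hy₂, addY, negAddY, negY, ← hx₂]
    rw [hx₂']
    ring
  have hA20 : A2 ≠ 0 := by
    intro e
    apply h3P
    rw [hQ]
    refine Point.add_of_Y_eq (hx₂'.trans (by rw [e, sub_zero])) ?_
    rw [hy₂', hx₂', e, negY]
    ring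
  have hy2 : y₂ ≠ W.negY x₂ y₂ := by
    intro e
    apply hne
    rw [hQ, Point.add_self_of_Y_eq e, zero_add] at h5
    exact h5
  have hD2' : tA3 W x₂ y₂ = A1 * A2 - A3 := by
    simp only [tA3, hy₂', hx₂', hA3, hA1, tA1, ← hl]
    ring
  have hD2 : A1 * A2 - A3 ≠ 0 := by
    rw [← hD2']
    intro e
    apply hy2
    simp only [tA3] at e
    simp only [negY]
    linear_combination e
  set l₂ := tLam W x₂ y₂ with hl₂
  have hsl2 : W.slope x₂ x₂ y₂ y₂ = l₂ := by
    rw [slope_of_Y_ne rfl hy2, hl₂, tLam, tA3]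
    congr 1
    simp only [negY]
    ring
  have h4 : W.addX x₂ x₂ l₂ = x := by
    have hneg := eq_neg_of_add_eq_zero_left h5
    rw [hQ, Point.add_self_of_Y_ne hy2, hPdef, Point.neg_some] at hneg
    have := (Point.some.inj hneg).1
    rwa [hsl2] at this
  simp only [addX] at h4
  have hA2Q : tA2 W x₂ y₂ = -A2 := by
    simp only [tA2, ← hl₂]
    linear_combination -h4 + hx₂'
  have hlam : l * A3 = 3 * x ^ 2 + 2 * W.a₂ * x + W.a₄ - W.a₁ * y := div_mul_cancel₀ _ hD
  have hμ : (l₂ - l) * (A1 * A2 - A3) = A2 ^ 2 - A1 * (A1 * A2 - A3) := by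
    have h2 : l₂ * tA3 W x₂ y₂ = 3 * x₂ ^ 2 + 2 * W.a₂ * x₂ + W.a₄ - W.a₁ * y₂ :=
      div_mul_cancel₀ _ (hD2' ▸ hD2)
    rw [hD2', hy₂', hx₂'] at h2
    simp only [hA1, hA2, hA3, tA1, tA2, tA3, ← hl] at h2 hlam ⊢
    linear_combination h2 - hlam
  have hquad : (l₂ - l) ^ 2 + A1 * (l₂ - l) + A2 = 0 := by
    rw [hx₂'] at h4
    simp only [hA1, hA2, tA1, tA2, ← hl] at h4 ⊢
    linear_combination h4
  have hrel : A2 ^ 3 - A1 * A2 * A3 + A3 ^ 2 = 0 := by
    apply mul_left_cancel₀ hA20
    have e : (A2 ^ 2 - A1 * (A1 * A2 - A3)) ^ 2 +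
        A1 * (A2 ^ 2 - A1 * (A1 * A2 - A3)) * (A1 * A2 - A3) + A2 * (A1 * A2 - A3) ^ 2 = 0 := by
      rw [← hμ]
      linear_combination (A1 * A2 - A3) ^ 2 * hquad
    linear_combination e
  refine ⟨hD, hA20, hrel, x₂, y₂, hQ', hQ, hD2' ▸ hD2, ?_⟩
  have hb : tateB W x₂ y₂ = -(tateB W x y)⁻¹ := by
    have e : A2 ^ 3 / (A1 * A2 - A3) ^ 2 = A3 ^ 2 / A2 ^ 3 := by
      rw [div_eq_div_iff (pow_ne_zero 2 hD2) (pow_ne_zero 3 hA20)]
      linear_combination (A2 ^ 3 + A3 * (A1 * A2 - A3)) * hrel
    simp only [tateB, hA2Q, hD2', ← hA2, ← hA3]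
    rw [inv_div, div_neg, neg_neg, ← e]
    ring
  simp only [par5, hb]
  rw [inv_neg, inv_inv]
  ring

/-- The invariants of a curve with a point of order five. -/
lemma par5_spec {x y : K} (h : W.Nonsingular x y) (hP : (5 : ℕ) • Point.some x y h = 0) :
    W.c₄ ^ 3 * par5 W x y = W.Δ * (par5 W x y ^ 2 + 10 * par5 W x y + 5) ^ 3 := by
  obtain ⟨hD, hA20, hrel, -⟩ := order_five h hP
  obtain ⟨h4, hΔ⟩ := translated_invariants W h.1 hD
  rw [h4, hΔ]
  have hA1 : tA1 W x y = (tA3 W x y ^ 2 + tA2 W x y ^ 3) / (tA2 W x y * tA3 W x y) := by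
    field_simp
    linear_combination -hrel
  simp only [par5, tateB, hA1, WeierstrassCurve.c₄, WeierstrassCurve.Δ, WeierstrassCurve.b₂,
    WeierstrassCurve.b₄, WeierstrassCurve.b₆, WeierstrassCurve.b₈]
  generalize tA2 W x y = A2 at hA20 ⊢
  generalize tA3 W x y = A3 at hD ⊢
  field_simp
  ring

end FLTAgent.X015
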